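import Mathlib.LinearAlgebra.Eigenspace.Triangularizable
import Mathlib.LinearAlgebra.Dual.Lemmas
import Mathlib.FieldTheory.IsAlgClosed.AlgebraicClosure
import Mathlib.LinearAlgebra.Matrix.ToLin
import Mathlib.Tactic

/-!
# Commuting endomorphisms

A common eigenvector `e` and a common eigenfunctional `f` with `f e = 0` give two restrictions to
spaces of dimension one less, with kernels of total dimension at most `dim V`.
-/

set_option autoImplicit false

noncomputable section

open Module

namespace FA.SchurCommuting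

universe u

variable {K : Type*} [Field K]

theorem exists_common_eigvec [IsAlgClosed K] {V : Type*} [AddCommGroup V] [Module K V]
    [FiniteDimensional K V] [Nontrivial V] (S : Submodule K (End K V))
    (hS : ∀ X ∈ S, ∀ Y ∈ S, Commute X Y) :
    ∃ e : V, e ≠ 0 ∧ ∀ X ∈ S, ∃ c : K, X e = c • e := by
  obtain ⟨Z, ⟨hZ0, hZ⟩, hmin⟩ := IsArtinian.set_has_minimal
    {Z : Submodule K V | Z ≠ ⊥ ∧ ∀ X ∈ S, ∀ z ∈ Z, X z ∈ Z} ⟨⊤, top_ne_bot, by simp⟩
  obtain ⟨e, heZ, he0⟩ := Submodule.exists_mem_ne_zero_of_ne_bot hZ0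
  refine ⟨e, he0, fun X hX => ?_⟩
  have : Nontrivial Z := Submodule.nontrivial_iff_ne_bot.2 hZ0
  obtain ⟨c, hc⟩ := Module.End.exists_eigenvalue (LinearMap.restrict X (hZ X hX))
  obtain ⟨w, hw⟩ := hc.exists_hasEigenvector
  refine ⟨c, Module.End.mem_eigenspace_iff.1 ?_⟩
  suffices hE : Z ⊓ X.eigenspace c = Z from (hE.ge heZ).2
  refine eq_of_le_of_not_lt inf_le_left (hmin _ ⟨(Submodule.ne_bot_iff _).2
    ⟨w, ⟨w.2, Module.End.mem_eigenspace_iff.2
      (congrArg Subtype.val (Module.End.mem_eigenspace_iff.1 hw.1))⟩,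
      fun h => hw.2 (Subtype.ext h)⟩, fun Y hY z hz => ⟨hZ Y hY z hz.1, ?_⟩⟩)
  show Y z ∈ X.eigenspace c
  rw [Module.End.mem_eigenspace_iff, ← Module.End.mul_apply, (hS X hX Y hY).eq,
    Module.End.mul_apply, Module.End.mem_eigenspace_iff.1 hz.2, map_smul]

theorem arith (m : ℕ) : m ^ 2 / 4 + (m + 1) / 2 ≤ (m + 1) ^ 2 / 4 := by
  obtain ⟨k, rfl | rfl⟩ := Nat.even_or_odd' m <;> ring_nf <;> omega

/-- The inductive bound over an algebraically closed field. -/
theorem bound_closed [IsAlgClosed K] : ∀ (n : ℕ) (V : Type u) [AddCommGroup V] [Module K V]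
    [FiniteDimensional K V], finrank K V = n → ∀ S : Submodule K (End K V),
    (∀ X ∈ S, ∀ Y ∈ S, Commute X Y) → finrank K S ≤ n ^ 2 / 4 + 1 := by
  intro n
  induction n using Nat.strong_induction_on with
  | _ n ih =>
  intro V _ _ _ hn S hS
  rcases le_or_gt n 1 with h1 | h1
  · refine (Submodule.finrank_le S).trans ?_
    rw [Module.finrank_linearMap, hn]
    interval_cases n <;> simp
  obtain ⟨m, rfl⟩ : ∃ m, n = m + 1 := ⟨n - 1, by omega⟩
  have : Nontrivial V := (Module.finrank_pos_iff (R := K)).1 (by omega)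
  obtain ⟨e, he0, he⟩ := exists_common_eigvec S hS
  set L : Submodule K V := K ∙ e
  have hL : ∀ X ∈ S, L ≤ L.comap X := fun X hX => (Submodule.span_singleton_le_iff_mem _ _).2 (by
    obtain ⟨c, hc⟩ := he X hX
    exact (Submodule.mem_comap.2 (Submodule.mem_span_singleton.2 ⟨c, hc.symm⟩)))
  have hQ : finrank K (V ⧸ L) = m := by
    have := L.finrank_quotient_add_finrank
    rw [finrank_span_singleton he0, hn] at this
    omega
  let q : S →ₗ[K] End K (V ⧸ L) :=
    (Submodule.mapQLinear L L).comp (S.subtype.codRestrict (L.compatibleMaps L) fun X => hL X X.2)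
  have hq : ∀ (X : S) (v : V), q X (Submodule.Quotient.mk v) = Submodule.Quotient.mk (X.1 v) :=
    fun X v => rfl
  have hqc : ∀ X ∈ LinearMap.range q, ∀ Y ∈ LinearMap.range q, Commute X Y := by
    rintro _ ⟨X, rfl⟩ _ ⟨Y, rfl⟩
    refine Submodule.linearMap_qext _ (LinearMap.ext fun v => ?_)
    simp only [LinearMap.comp_apply, Submodule.mkQ_apply, Module.End.mul_apply, hq]
    exact congrArg Submodule.Quotient.mk (LinearMap.congr_fun (hS X X.2 Y Y.2).eq v)
  -- the common eigenfunctional
  have : Nontrivial (V ⧸ L) := (Module.finrank_pos_iff (R := K)).1 (by omega)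
  have : Nontrivial (Dual K (V ⧸ L)) := (Module.finrank_pos_iff (R := K)).1
    (by rw [Subspace.dual_finrank_eq]; omega)
  obtain ⟨g, hg0, hg⟩ := exists_common_eigvec
    ((LinearMap.range q).map (Module.Dual.transpose (R := K))) (by
      rintro _ ⟨X, hX, rfl⟩ _ ⟨Y, hY, rfl⟩
      exact LinearMap.ext fun φ => LinearMap.ext fun v =>
        congrArg φ (LinearMap.congr_fun (hqc Y hY X hX).eq v))
  set f : Dual K V := g.comp L.mkQ with hfdef
  have hfe : f e = 0 := by
    rw [hfdef, LinearMap.comp_apply, Submodule.mkQ_apply,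
      (Submodule.Quotient.mk_eq_zero _).2 (Submodule.mem_span_singleton_self e), map_zero]
  obtain ⟨v₁, hv₁⟩ : ∃ v, f v = 1 := by
    obtain ⟨w, hw⟩ := DFunLike.ne_iff.1 hg0
    obtain ⟨w, rfl⟩ := Submodule.Quotient.mk_surjective L w
    refine ⟨(f w)⁻¹ • w, ?_⟩
    rw [map_smul, smul_eq_mul, inv_mul_cancel₀]
    simpa [hfdef] using hw
  have hf : ∀ X ∈ S, ∃ c : K, ∀ v, f (X v) = c * f v := fun X hX => by
    obtain ⟨c, hc⟩ := hg _ ⟨q ⟨X, hX⟩, LinearMap.mem_range_self q _, rfl⟩
    exact ⟨c, fun v => LinearMap.congr_fun hc (Submodule.Quotient.mk v)⟩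
  set H := LinearMap.ker f
  have hH : ∀ X : S, ∀ v ∈ H, X.1 v ∈ H := fun X v hv => by
    obtain ⟨c, hc⟩ := hf X X.2
    rw [LinearMap.mem_ker] at hv ⊢
    rw [hc, hv, mul_zero]
  have hHd : finrank K H = m := by
    have := f.finrank_range_add_finrank_ker
    rw [LinearMap.range_eq_top.2 (fun c => ⟨c • v₁, by simp [hv₁]⟩), finrank_top,
      Module.finrank_self, hn] at this
    show finrank K (LinearMap.ker f) = m
    omega
  let r : S →ₗ[K] End K H :=
    { toFun := fun X => X.1.restrict (hH X)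
      map_add' := fun X Y => rfl
      map_smul' := fun c X => rfl }
  have hrc : ∀ X ∈ LinearMap.range r, ∀ Y ∈ LinearMap.range r, Commute X Y := by
    rintro _ ⟨X, rfl⟩ _ ⟨Y, rfl⟩
    exact LinearMap.ext fun v => Subtype.ext (LinearMap.congr_fun (hS X X.2 Y Y.2).eq (v : V))
  -- the two kernels
  obtain ⟨φ, hφ⟩ : ∃ φ : Dual K V, φ e = 1 := by
    obtain ⟨φ, hφ⟩ := LinearMap.exists_extend
      ((LinearEquiv.toSpanNonzeroSingleton K V e he0).symm.toLinearMap)
    refine ⟨φ, ?_⟩
    have := LinearMap.congr_fun hφ ⟨e, Submodule.mem_span_singleton_self e⟩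
    rw [LinearMap.comp_apply, Submodule.subtype_apply] at this
    exact this.trans ((LinearEquiv.symm_apply_eq _).2 (Subtype.ext (one_smul K e).symm))
  have hW1 : ∀ X : LinearMap.ker q, ∀ v, X.1.1 v = φ (X.1.1 v) • e := fun X v => by
    have : X.1.1 v ∈ L := by
      rw [← Submodule.Quotient.mk_eq_zero, ← hq X.1 v, LinearMap.mem_ker.1 X.2,
        LinearMap.zero_apply]
    obtain ⟨c, hc⟩ := Submodule.mem_span_singleton.1 this
    rw [← hc, map_smul, hφ, smul_eq_mul, mul_one]
  have hW2 : ∀ X : LinearMap.ker r, ∀ v, X.1.1 v = f v • X.1.1 v₁ := fun X v => by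
    have hm : v - f v • v₁ ∈ H := by simp [H, hv₁]
    have : X.1.1 (v - f v • v₁) = 0 :=
      congrArg Subtype.val (LinearMap.congr_fun (LinearMap.mem_ker.1 X.2) ⟨_, hm⟩)
    rwa [map_sub, map_smul, sub_eq_zero] at this
  let ρ : LinearMap.ker q →ₗ[K] Dual K V :=
    { toFun := fun X => φ.comp X.1.1
      map_add' := fun X Y => by ext; simp
      map_smul' := fun c X => by ext; simp }
  let γ : LinearMap.ker r →ₗ[K] V :=
    { toFun := fun X => X.1.1 v₁
      map_add' := fun X Y => rfl
      map_smul' := fun c X => rfl }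
  have hρ : Function.Injective ρ := fun X Y h => by
    refine Subtype.ext (Subtype.ext (LinearMap.ext fun v => ?_))
    rw [hW1 X v, hW1 Y v]
    exact congrArg (· • e) (LinearMap.congr_fun h v)
  have hγ : Function.Injective γ := fun X Y h => by
    refine Subtype.ext (Subtype.ext (LinearMap.ext fun v => ?_))
    rw [hW2 X v, hW2 Y v]
    exact congrArg (f v • ·) h
  have horth : LinearMap.range ρ ≤ (LinearMap.range γ).dualAnnihilator := by
    rintro _ ⟨X, rfl⟩
    rw [Submodule.mem_dualAnnihilator]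
    rintro _ ⟨Y, rfl⟩
    show φ (X.1.1 (Y.1.1 v₁)) = 0
    rw [show X.1.1 (Y.1.1 v₁) = Y.1.1 (X.1.1 v₁) from
      LinearMap.congr_fun (hS X.1 X.1.2 Y.1 Y.1.2).eq v₁, hW1 X v₁, map_smul, hW2 Y e, hfe,
      zero_smul, smul_zero, map_zero]
  have hsum : finrank K (LinearMap.ker q) + finrank K (LinearMap.ker r) ≤ m + 1 := by
    rw [← LinearMap.finrank_range_of_inj hρ, ← LinearMap.finrank_range_of_inj hγ, ← hn,
      ← Subspace.finrank_add_finrank_dualAnnihilator_eq (LinearMap.range γ), add_comm]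
    exact Nat.add_le_add_left (Submodule.finrank_mono horth) _
  have h2 := q.finrank_range_add_finrank_ker
  have h3 := r.finrank_range_add_finrank_ker
  have h4 := ih m (by omega) (V ⧸ L) hQ _ hqc
  have h5 := ih m (by omega) H hHd _ hrc
  have := arith m
  omega

/-- The bound for matrices over every field. -/
theorem bound_matrix {n : ℕ} (S : Submodule K (Matrix (Fin n) (Fin n) K))
    (hS : ∀ X ∈ S, ∀ Y ∈ S, Commute X Y) : finrank K S ≤ n ^ 2 / 4 + 1 := by
  set F := AlgebraicClosure K
  set b := Module.finBasis K S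
  set ι : K →+* F := algebraMap K F
  let v : Fin (finrank K S) → End F (Fin n → F) :=
    fun i => Matrix.toLinAlgEquiv' ((b i).1.map ι)
  have hli : LinearIndependent F v := by
    refine LinearIndependent.map' ?_ (Matrix.toLinAlgEquiv' (R := F)).toLinearMap
      (LinearMap.ker_eq_bot.2 (Matrix.toLinAlgEquiv' (R := F)).injective)
    rw [Fintype.linearIndependent_iff]
    intro c hc i
    rw [← Module.forall_dual_apply_eq_zero_iff K]
    intro ψ
    refine Fintype.linearIndependent_iff.1
      (b.linearIndependent.map' S.subtype (Submodule.ker_subtype S)) (fun j => ψ (c j)) ?_ i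
    ext p p'
    have := congrArg ψ (congrFun (congrFun hc p) p')
    simpa [Matrix.sum_apply, ι, mul_comm (c _), ← Algebra.smul_def, mul_comm (ψ _)] using this
  have hcomm : ∀ X ∈ Submodule.span F (Set.range v), ∀ Y ∈ Submodule.span F (Set.range v),
      Commute X Y := by
    have hgen : ∀ i j, Commute (v i) (v j) := fun i j =>
      ((hS _ (b i).2 _ (b j).2).map ι.mapMatrix).map Matrix.toLinAlgEquiv'
    intro X hX Y hY
    induction hX using Submodule.span_induction with
    | mem x hx =>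
      obtain ⟨i, rfl⟩ := hx
      induction hY using Submodule.span_induction with
      | mem y hy => obtain ⟨j, rfl⟩ := hy; exact hgen i j
      | zero => exact Commute.zero_right _
      | add _ _ _ _ h h' => exact h.add_right h'
      | smul c _ _ h => exact h.smul_right c
    | zero => exact Commute.zero_left _
    | add _ _ _ _ h h' => exact h.add_left h'
    | smul c _ _ h => exact h.smul_left c
  have := bound_closed n (Fin n → F) (Module.finrank_fin_fun F) _ hcomm
  rwa [finrank_span_eq_card hli, Fintype.card_fin] at this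

/-- The bound for endomorphisms over every field. -/
theorem bound_end {V : Type*} [AddCommGroup V] [Module K V] [FiniteDimensional K V]
    (S : Submodule K (End K V)) (hS : ∀ X ∈ S, ∀ Y ∈ S, Commute X Y) :
    finrank K S ≤ finrank K V ^ 2 / 4 + 1 := by
  have e := LinearMap.toMatrixAlgEquiv (Module.finBasis K V)
  rw [(e.toLinearEquiv.submoduleMap S).finrank_eq]
  refine bound_matrix _ ?_
  rintro _ ⟨X, hX, rfl⟩ _ ⟨Y, hY, rfl⟩
  exact (hS X hX Y hY).map e

/-- The algebra of the bound: scalars and the off-diagonal block. -/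
def block (a b : ℕ) :
    K × Matrix (Fin a) (Fin b) K →ₗ[K] Matrix (Fin a ⊕ Fin b) (Fin a ⊕ Fin b) K where
  toFun p := Matrix.fromBlocks (p.1 • 1) p.2 0 (p.1 • 1)
  map_add' p q := by simp [Matrix.fromBlocks_add, add_smul]
  map_smul' c p := by simp [Matrix.fromBlocks_smul, mul_smul]

theorem block_mul {a b : ℕ} (p q : K × Matrix (Fin a) (Fin b) K) :
    block a b p * block a b q = block a b (p.1 * q.1, p.1 • q.2 + q.1 • p.2) := by
  simp [block, Matrix.fromBlocks_multiply, smul_smul, mul_comm, add_comm]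

theorem attained {n : ℕ} (hn : 0 < n) :
    ∃ A : Subalgebra K (Matrix (Fin n) (Fin n) K),
      (∀ X ∈ A, ∀ Y ∈ A, Commute X Y) ∧ finrank K A = n ^ 2 / 4 + 1 := by
  obtain ⟨a, b, hb, rfl, hab⟩ : ∃ a b, 0 < b ∧ n = a + b ∧ a * b = n ^ 2 / 4 := by
    refine ⟨n / 2, n - n / 2, by omega, by omega, ?_⟩
    obtain ⟨k, rfl | rfl⟩ := Nat.even_or_odd' n
    · rw [show 2 * k / 2 = k by omega, show 2 * k - k = k by omega]; ring_nf; omega
    · rw [show (2 * k + 1) / 2 = k by omega, show 2 * k + 1 - k = k + 1 by omega]; ring_nf; omega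
  let e := Matrix.reindexAlgEquiv K K (finSumFinEquiv (m := a) (n := b))
  let f := e.toLinearEquiv.toLinearMap.comp (block (K := K) a b)
  have hmul : ∀ p q, f p * f q = f (p.1 * q.1, p.1 • q.2 + q.1 • p.2) := fun p q => by
    show e (block a b p) * e (block a b q) = e (block a b _)
    rw [← map_mul, block_mul]
  refine ⟨(LinearMap.range f).toSubalgebra ⟨(1, 0), ?_⟩ ?_, ?_, ?_⟩
  · show e (block a b (1, 0)) = 1
    simp [block]
  · rintro _ _ ⟨p, rfl⟩ ⟨q, rfl⟩
    exact ⟨_, (hmul p q).symm⟩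
  · rintro _ ⟨p, rfl⟩ _ ⟨q, rfl⟩
    show f p * f q = f q * f p
    rw [hmul, hmul, mul_comm p.1 q.1, add_comm (p.1 • q.2)]
  · show finrank K (LinearMap.range f) = _
    rw [LinearMap.finrank_range_of_inj, Module.finrank_prod, Module.finrank_self,
      Module.finrank_matrix, Module.finrank_self]
    · simp [hab, add_comm]
    · intro p q h
      have h' : block a b p = block a b q := e.injective h
      simp only [block, LinearMap.coe_mk, AddHom.coe_mk, Matrix.fromBlocks_inj] at h'
      obtain ⟨-, h12, -, h22⟩ := h'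
      refine Prod.ext ?_ h12
      simpa using congrFun (congrFun h22 ⟨0, hb⟩) ⟨0, hb⟩

end FA.SchurCommuting
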